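import Fermat.Agent.ShortCharSums.Moments
import Mathlib.Analysis.SpecialFunctions.Pow.Asymptotics

/-!
# The characteristic functions of short sums

The method of moments, with an explicit Taylor remainder.
-/

set_option autoImplicit false

noncomputable section

namespace FA.ShortCharSums

open Finset Filter
open scoped Topology

/-- The Taylor polynomial of `exp (i y)`. -/
def taylorSum (n : ℕ) (y : ℝ) : ℂ := ∑ k ∈ range n, ((y : ℂ) * Complex.I) ^ k / k.factorial

theorem norm_exp_sub_taylorSum_le (n : ℕ) (y : ℝ) :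
    ‖Complex.exp ((y : ℂ) * Complex.I) - taylorSum n y‖ ≤ 4 * (2 * |y|) ^ n / n.factorial := by
  have hn : ‖(y : ℂ) * Complex.I‖ = |y| := by simp
  have hfac : (0 : ℝ) < n.factorial := Nat.cast_pos.2 n.factorial_pos
  by_cases hy : |y| / (n.succ : ℝ) ≤ 1 / 2
  · refine (Complex.exp_bound' (x := (y : ℂ) * Complex.I) (n := n) (by rw [hn]; exact hy)).trans ?_
    rw [hn, div_mul_eq_mul_div]
    refine div_le_div_of_nonneg_right ?_ hfac.le
    rw [mul_pow, ← mul_assoc, mul_comm]
    refine mul_le_mul_of_nonneg_right ?_ (by positivity)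
    linarith [one_le_pow₀ (M₀ := ℝ) (n := n) one_le_two]
  · obtain ⟨a, ha⟩ : ∃ a : ℕ → ℝ, a = fun k => |y| ^ k / k.factorial := ⟨_, rfl⟩
    rw [not_le, lt_div_iff₀ (by positivity), Nat.cast_succ] at hy
    have ha0 : ∀ k, 0 ≤ a k := fun k => by rw [ha]; positivity
    have hstep : ∀ k < n, a k ≤ 2 * a (k + 1) := by
      intro k hk
      have hk' : (k : ℝ) + 1 ≤ n := by exact_mod_cast hk
      rw [ha]
      simp only
      rw [Nat.factorial_succ, Nat.cast_mul, Nat.cast_succ, pow_succ, mul_div_assoc',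
        div_le_div_iff₀ (by positivity) (by positivity)]
      have h := mul_le_mul_of_nonneg_left (show ((k : ℝ) + 1) ≤ 2 * |y| by linarith)
        (show 0 ≤ |y| ^ k * k.factorial by positivity)
      linarith
    have hsum : ∀ m ≤ n, (∑ k ∈ range m, a k) ≤ (2 ^ (m + 1) - 2) * a m ∧ a 0 ≤ 2 ^ m * a m := by
      intro m
      induction m with
      | zero => intro _; simp
      | succ m ih =>
        intro hm
        obtain ⟨h1, h2⟩ := ih (Nat.le_of_succ_le hm)
        have hs := hstep m hm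
        have hp : (1 : ℝ) ≤ 2 ^ m := one_le_pow₀ one_le_two
        constructor
        · rw [sum_range_succ]
          have h3 := mul_le_mul_of_nonneg_left hs (show (0 : ℝ) ≤ 2 ^ (m + 1) - 1 by
            rw [pow_succ]; linarith)
          rw [pow_succ (2 : ℝ) (m + 1)]
          linarith
        · rw [pow_succ]
          have h3 := mul_le_mul_of_nonneg_left hs (show (0 : ℝ) ≤ 2 ^ m by positivity)
          linarith
    obtain ⟨h1, h2⟩ := hsum n le_rfl
    have hT : ‖taylorSum n y‖ ≤ ∑ k ∈ range n, a k := by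
      refine (norm_sum_le _ _).trans (le_of_eq (sum_congr rfl fun k _ => ?_))
      rw [norm_div, norm_pow, hn, ha, Complex.norm_natCast]
    refine (norm_sub_le _ _).trans ?_
    rw [Complex.norm_exp_ofReal_mul_I]
    have e : 4 * (2 * |y|) ^ n / (n.factorial : ℝ) = 4 * 2 ^ n * a n := by
      rw [ha, mul_pow, ← mul_assoc, mul_div_assoc]
    have h0 : a 0 = 1 := by simp [ha]
    have h5 := ha0 n
    have h6 : 0 ≤ (2 : ℝ) ^ n * a n := mul_nonneg (by positivity) h5
    rw [pow_succ] at h1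
    rw [e]
    linarith

/-- The normalised moments of the short sums. -/
def normMoment (p h k : ℕ) : ℝ := (∑ x ∈ range p, (jsum p h x / Real.sqrt h) ^ k) / p

/-- The normalised moments of the model. -/
def normModel (h k : ℕ) : ℝ := (∑ ε : Fin h → Bool, (signSum ε / Real.sqrt h) ^ k) / 2 ^ h

/-- The characteristic function of the short sums. -/
def charAvg (p h : ℕ) (t : ℝ) : ℂ :=
  (∑ x ∈ range p, Complex.exp ((t * (jsum p h x / Real.sqrt h) : ℝ) * Complex.I)) / p

theorem abs_normMoment_sub_le {p h : ℕ} (hp : p.Prime) (hh : h < p) (k : ℕ) :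
    |normMoment p h k - normModel h k| ≤
      25 * (k + 1) * Real.sqrt ((h : ℝ) ^ k / p) := by
  have := Fact.mk hp
  have hp0 : (0 : ℝ) < p := Nat.cast_pos.2 hp.pos
  rcases Nat.eq_zero_or_pos h with rfl | hh0
  · have hj : ∀ x, jsum p 0 x = 0 := fun x => rfl
    have hs : ∀ ε : Fin 0 → Bool, signSum ε = 0 := fun ε => rfl
    simp [normMoment, normModel, hj, hs, hp0.ne']
    positivity
  obtain ⟨S, hS⟩ : ∃ S, S = Real.sqrt h ^ k := ⟨_, rfl⟩
  have hS0 : 0 < S := by rw [hS]; exact pow_pos (Real.sqrt_pos.2 (Nat.cast_pos.2 hh0)) k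
  have e1 : normMoment p h k = charMoment p h k / S := by
    simp only [normMoment, charMoment, div_pow, ← sum_div, hS]
    ring
  have e2 : normModel h k = modelMoment h k / S := by
    simp only [normModel, modelMoment, div_pow, ← sum_div, hS]
    ring
  rw [e1, e2, ← sub_div, abs_div, abs_of_pos hS0]
  refine (div_le_div_of_nonneg_right (abs_charMoment_sub_le hh k) hS0.le).trans (le_of_eq ?_)
  have e3 : Real.sqrt ((h : ℝ) ^ k / p) = S / Real.sqrt p := by
    rw [Real.sqrt_div' _ hp0.le, hS]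
    congr 1
    rw [Real.sqrt_eq_iff_mul_self_eq (by positivity) (by positivity), ← mul_pow,
      Real.mul_self_sqrt (Nat.cast_nonneg h)]
  have e4 : (h : ℝ) ^ k = S * S := by
    rw [hS, ← mul_pow, Real.mul_self_sqrt (Nat.cast_nonneg h)]
  rw [e3, e4]
  field_simp

theorem norm_mean_exp_sub_le {ι : Type*} (s : Finset ι) (w : ι → ℝ) (M : ℝ) (hM : 0 < M)
    (t : ℝ) (r : ℕ) :
    ‖(∑ i ∈ s, Complex.exp ((t * w i : ℝ) * Complex.I)) / M -
      ∑ k ∈ range (2 * r), ((t : ℂ) * Complex.I) ^ k / k.factorial *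
        (((∑ i ∈ s, w i ^ k) / M : ℝ) : ℂ)‖ ≤
      4 * (2 * t) ^ (2 * r) / (2 * r).factorial * ((∑ i ∈ s, w i ^ (2 * r)) / M) := by
  have e : ∑ k ∈ range (2 * r), ((t : ℂ) * Complex.I) ^ k / k.factorial *
      (((∑ i ∈ s, w i ^ k) / M : ℝ) : ℂ) = (∑ i ∈ s, taylorSum (2 * r) (t * w i)) / M := by
    simp only [taylorSum]
    rw [sum_comm, sum_div]
    refine sum_congr rfl fun k _ => ?_
    push_cast
    rw [← mul_div_assoc, mul_sum]
    congr 1
    refine sum_congr rfl fun i _ => ?_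
    ring
  rw [e, ← sub_div, ← sum_sub_distrib, norm_div, Complex.norm_real, Real.norm_of_nonneg hM.le,
    ← mul_div_assoc]
  refine div_le_div_of_nonneg_right ((norm_sum_le _ _).trans ?_) hM.le
  rw [mul_sum]
  refine sum_le_sum fun i _ => (norm_exp_sub_taylorSum_le _ _).trans (le_of_eq ?_)
  rw [abs_mul, ← mul_assoc 2, mul_pow, (even_two_mul r).pow_abs, mul_pow 2 |t|,
    (even_two_mul r).pow_abs, mul_pow 2 t]
  ring

theorem charAvg_sub_cos_pow_le {p h : ℕ} (hp : p.Prime) (hh : h < p) (hh0 : 0 < h) (t u : ℝ)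
    (hu : 0 < u) (r : ℕ) :
    ‖charAvg p h t - ((Real.cos (t / Real.sqrt h) ^ h : ℝ) : ℂ)‖ ≤
      16 * Real.exp (u ^ 2 / 2) * ((2 * t) / u) ^ (2 * r) +
        ((∑ k ∈ range (2 * r), |t| ^ k / k.factorial * (25 * (k + 1) *
            Real.sqrt ((h : ℝ) ^ k / p))) +
          4 * (2 * t) ^ (2 * r) / (2 * r).factorial * (25 * (2 * r + 1) *
            Real.sqrt ((h : ℝ) ^ (2 * r) / p))) := by
  have hp0 : (0 : ℝ) < p := Nat.cast_pos.2 hp.pos
  have hA := norm_mean_exp_sub_le (range p) (fun x => jsum p h x / Real.sqrt h) p hp0 t r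
  have hB := norm_mean_exp_sub_le (univ : Finset (Fin h → Bool))
    (fun ε => signSum ε / Real.sqrt h) (2 ^ h) (by positivity) t r
  have eB : (∑ ε : Fin h → Bool, Complex.exp ((t * (signSum ε / Real.sqrt h) : ℝ) * Complex.I)) /
      ((2 ^ h : ℝ) : ℂ) = ((Real.cos (t / Real.sqrt h) ^ h : ℝ) : ℂ) := by
    have e : ∀ ε : Fin h → Bool, ((t * (signSum ε / Real.sqrt h) : ℝ) : ℂ) * Complex.I =
        ((t / Real.sqrt h : ℝ) : ℂ) * Complex.I * (signSum ε : ℂ) := fun ε => by push_cast; ring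
    simp only [e]
    rw [sum_exp_mul_signSum, Complex.cosh_mul_I]
    push_cast
    rw [mul_pow, mul_div_cancel_left₀ _ (pow_ne_zero _ two_ne_zero)]
  rw [eB] at hB
  simp only [Complex.ofReal_natCast] at hA
  have hd := fun k => abs_normMoment_sub_le hp hh k
  have hmid : ‖(∑ k ∈ range (2 * r), ((t : ℂ) * Complex.I) ^ k / k.factorial *
        ((normMoment p h k : ℝ) : ℂ)) - ∑ k ∈ range (2 * r), ((t : ℂ) * Complex.I) ^ k /
        k.factorial * ((normModel h k : ℝ) : ℂ)‖ ≤
      ∑ k ∈ range (2 * r), |t| ^ k / k.factorial * (25 * (k + 1) *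
        Real.sqrt ((h : ℝ) ^ k / p)) := by
    rw [← sum_sub_distrib]
    refine (norm_sum_le _ _).trans (sum_le_sum fun k _ => ?_)
    rw [← mul_sub, ← Complex.ofReal_sub, norm_mul, norm_div, norm_pow, norm_mul, Complex.norm_I,
      mul_one, Complex.norm_natCast, Complex.norm_real, Complex.norm_real, Real.norm_eq_abs,
      Real.norm_eq_abs]
    exact mul_le_mul_of_nonneg_left (hd k) (by positivity)
  have htail : 4 * (2 * t) ^ (2 * r) / (2 * r).factorial * normModel h (2 * r) ≤
      8 * Real.exp (u ^ 2 / 2) * ((2 * t) / u) ^ (2 * r) := by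
    have h1 := sum_pow_div_le h r hh0 u
    simp only [mul_pow u, ← sum_div, ← mul_sum] at h1
    have h3 : normModel h (2 * r) * u ^ (2 * r) / (2 * r).factorial ≤
        2 * Real.exp (u ^ 2 / 2) := le_of_eq_of_le (by rw [normModel]; ring) h1
    have hu' : 0 < u ^ (2 * r) := by positivity
    calc 4 * (2 * t) ^ (2 * r) / (2 * r).factorial * normModel h (2 * r)
        = 4 * ((2 * t) / u) ^ (2 * r) * (normModel h (2 * r) * u ^ (2 * r) /
          (2 * r).factorial) := by rw [div_pow]; field_simp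
      _ ≤ 4 * ((2 * t) / u) ^ (2 * r) * (2 * Real.exp (u ^ 2 / 2)) :=
          mul_le_mul_of_nonneg_left h3 (mul_nonneg (by norm_num) ((even_two_mul r).pow_nonneg _))
      _ = _ := by ring
  have hpos : 0 ≤ 4 * (2 * t) ^ (2 * r) / ((2 * r).factorial : ℝ) :=
    div_nonneg (mul_nonneg (by norm_num) ((even_two_mul r).pow_nonneg _)) (Nat.cast_nonneg _)
  have h2 := mul_le_mul_of_nonneg_left (abs_le.1 (hd (2 * r))).2 hpos
  push_cast at h2
  rw [mul_sub] at h2
  replace hA : ‖charAvg p h t - ∑ k ∈ range (2 * r), ((t : ℂ) * Complex.I) ^ k / k.factorial *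
      ((normMoment p h k : ℝ) : ℂ)‖ ≤ 4 * (2 * t) ^ (2 * r) / (2 * r).factorial *
        normMoment p h (2 * r) := hA
  replace hB : ‖((Real.cos (t / Real.sqrt h) ^ h : ℝ) : ℂ) - ∑ k ∈ range (2 * r),
      ((t : ℂ) * Complex.I) ^ k / k.factorial * ((normModel h k : ℝ) : ℂ)‖ ≤
        4 * (2 * t) ^ (2 * r) / (2 * r).factorial * normModel h (2 * r) := hB
  refine (norm_sub_le_norm_sub_add_norm_sub _ _ _).trans ((add_le_add hA
    ((norm_sub_le_norm_sub_add_norm_sub _ _ _).trans (add_le_add hmid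
      ((norm_sub_rev _ _).trans_le hB)))).trans ?_)
  linarith

/-- The primes, going to infinity. -/
def primesAtTop : Filter ℕ := atTop ⊓ 𝓟 {p | p.Prime}

theorem eventually_lt_and_pow_div_le {h : ℕ → ℕ}
    (hlog : Tendsto (fun p => Real.log (h p) / Real.log p) primesAtTop (𝓝 0)) (k : ℕ) :
    ∀ᶠ p in primesAtTop, h p < p ∧ ((h p : ℝ) ^ k / p) ≤ (Real.sqrt p)⁻¹ := by
  have hε : (0 : ℝ) < 1 / (2 * (k + 1)) := by positivity
  filter_upwards [hlog.eventually_le_const hε,
    (eventually_ge_atTop 2).filter_mono inf_le_left] with p hp h2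
  have hp1 : (1 : ℝ) < p := Nat.one_lt_cast.2 h2
  have hlp : 0 < Real.log p := Real.log_pos hp1
  rw [div_le_iff₀ hlp] at hp
  rcases Nat.eq_zero_or_pos (h p) with h0 | h0
  · refine ⟨by omega, ?_⟩
    rcases k.eq_zero_or_pos with rfl | hk
    · rw [pow_zero, one_div]
      exact inv_anti₀ (Real.sqrt_pos.2 (by linarith))
        (Real.sqrt_le_iff.2 ⟨by linarith, le_self_pow₀ hp1.le two_ne_zero⟩)
    · rw [h0, Nat.cast_zero, zero_pow hk.ne', zero_div]
      positivity
  · have hR : (0 : ℝ) < h p := Nat.cast_pos.2 h0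
    have hk : ((k : ℝ) + 1) * Real.log (h p) ≤ Real.log p / 2 := by
      refine (mul_le_mul_of_nonneg_left hp (by positivity)).trans (le_of_eq ?_)
      field_simp
    have hl0 : 0 ≤ Real.log (h p) := Real.log_natCast_nonneg _
    have hk' : (k : ℝ) * Real.log (h p) ≤ Real.log p / 2 := by linarith
    have h1 : Real.log (h p) ≤ Real.log p / 2 := by
      linarith [mul_nonneg (Nat.cast_nonneg (α := ℝ) k) hl0]
    constructor
    · exact Nat.cast_lt.1 ((Real.log_lt_log_iff hR (by linarith)).1 (by linarith))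
    · rw [← Real.log_le_log_iff (by positivity) (by positivity), Real.log_div
        (by positivity) (by positivity), Real.log_pow, Real.log_inv, Real.log_sqrt (by linarith)]
      linarith

theorem tendsto_sqrt_pow_div {h : ℕ → ℕ}
    (hlog : Tendsto (fun p => Real.log (h p) / Real.log p) primesAtTop (𝓝 0)) (k : ℕ) :
    Tendsto (fun p => Real.sqrt ((h p : ℝ) ^ k / p)) primesAtTop (𝓝 0) := by
  rw [← Real.sqrt_zero]
  refine (Real.continuous_sqrt.tendsto 0).comp (squeeze_zero'
    (Eventually.of_forall fun p => by positivity)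
    ((eventually_lt_and_pow_div_le hlog k).mono fun p hp => hp.2) ?_)
  exact (tendsto_inv_atTop_zero.comp (Real.tendsto_sqrt_atTop.comp
    tendsto_natCast_atTop_atTop)).mono_left inf_le_left

/-- **The characteristic functions converge.** -/
theorem tendsto_charAvg {h : ℕ → ℕ} (hh : Tendsto h primesAtTop atTop)
    (hlog : Tendsto (fun p => Real.log (h p) / Real.log p) primesAtTop (𝓝 0)) (t : ℝ) :
    Tendsto (fun p => charAvg p (h p) t) primesAtTop
      (𝓝 (Complex.exp (-(t : ℂ) ^ 2 / 2))) := by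
  have hlim : Tendsto (fun p => ((Real.cos (t / Real.sqrt (h p)) ^ h p : ℝ) : ℂ)) primesAtTop
      (𝓝 (Complex.exp (-(t : ℂ) ^ 2 / 2))) := by
    have h1 := (Complex.continuous_ofReal.tendsto _).comp ((tendsto_cos_pow t).comp hh)
    rw [Complex.ofReal_exp] at h1
    push_cast at h1
    exact h1
  refine hlim.congr_dist (Metric.tendsto_nhds.2 fun ε hε => ?_)
  obtain ⟨u, hu⟩ : ∃ u : ℝ, u = 4 * (|t| + 1) := ⟨_, rfl⟩
  have hu0 : 0 < u := by rw [hu]; positivity
  have hq : ((2 * t) / u) ^ 2 < 1 := by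
    rw [sq_lt_one_iff_abs_lt_one, abs_div, abs_of_pos hu0, div_lt_one hu0, abs_mul, abs_two, hu]
    linarith [abs_nonneg t]
  obtain ⟨r, hr⟩ := (((tendsto_pow_atTop_nhds_zero_of_lt_one (sq_nonneg _) hq).const_mul
    (16 * Real.exp (u ^ 2 / 2))).eventually_lt_const
      (show 16 * Real.exp (u ^ 2 / 2) * 0 < ε / 2 by rw [mul_zero]; linarith)).exists
  rw [← pow_mul] at hr
  have herr : Tendsto (fun p => (∑ k ∈ range (2 * r), |t| ^ k / k.factorial * (25 * (k + 1) *
        Real.sqrt ((h p : ℝ) ^ k / p))) + 4 * (2 * t) ^ (2 * r) / (2 * r).factorial *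
          (25 * (2 * r + 1) * Real.sqrt ((h p : ℝ) ^ (2 * r) / p))) primesAtTop (𝓝 0) := by
    have h1 := (tendsto_finsetSum (range (2 * r)) fun k _ =>
      ((tendsto_sqrt_pow_div hlog k).const_mul
      (25 * ((k : ℝ) + 1))).const_mul (|t| ^ k / (k.factorial : ℝ))).add
      (((tendsto_sqrt_pow_div hlog (2 * r)).const_mul (25 * (2 * (r : ℝ) + 1))).const_mul
        (4 * (2 * t) ^ (2 * r) / ((2 * r).factorial : ℝ)))
    simpa using h1
  filter_upwards [herr.eventually_lt_const (half_pos hε), (eventually_lt_and_pow_div_le hlog 0),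
    eventually_inf_principal.2 (Eventually.of_forall fun p hp => hp),
    hh.eventually_gt_atTop 0] with p he hp1 hp hh0
  rw [Real.dist_0_eq_abs, abs_of_nonneg dist_nonneg, dist_eq_norm, norm_sub_rev]
  have := charAvg_sub_cos_pow_le hp hp1.1 hh0 t u hu0 r
  linarith

end FA.ShortCharSums
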