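import Fermat.Agent.ShortCharSums.CharFun
import Mathlib.MeasureTheory.Measure.LevyConvergence
import Mathlib.MeasureTheory.Measure.Portmanteau
import Mathlib.Probability.Distributions.Gaussian.Real

/-!
# The theorem of Davenport and Erdős on short sums of Legendre symbols

The sums `∑_{n = x + 1}^{x + h} (n / p)` are normally distributed with variance `h`.
-/

set_option autoImplicit false

noncomputable section

namespace FA.ShortCharSums

open Finset Filter MeasureTheory
open scoped Topology

/-- The uniform measure on the normalised sums. -/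
def valMeasure (p h : ℕ) : Measure ℝ :=
  (p : ENNReal)⁻¹ • ∑ x ∈ range p, Measure.dirac (jsum p h x / Real.sqrt h)

theorem isProbabilityMeasure_valMeasure {p : ℕ} (hp : p ≠ 0) (h : ℕ) :
    IsProbabilityMeasure (valMeasure p h) := by
  refine ⟨?_⟩
  rw [valMeasure, Measure.smul_apply, Measure.finsetSum_apply, smul_eq_mul]
  simp only [measure_univ, sum_const, card_range, nsmul_one]
  exact ENNReal.inv_mul_cancel (Nat.cast_ne_zero.2 hp) (ENNReal.natCast_ne_top _)

theorem charFun_valMeasure (p h : ℕ) (t : ℝ) : charFun (valMeasure p h) t = charAvg p h t := by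
  rw [charFun_apply_real, valMeasure, integral_smul_measure,
    integral_finsetSum_measure fun n _ => integrable_dirac (by simp), charAvg]
  simp only [integral_dirac]
  rw [ENNReal.toReal_inv, ENNReal.toReal_natCast, Complex.real_smul, div_eq_inv_mul]
  push_cast
  rfl

theorem valMeasure_real (p h : ℕ) {A : Set ℝ} (hA : MeasurableSet A) :
    (valMeasure p h).real A =
      (∑ x ∈ range p, A.indicator (fun _ => (1 : ℝ)) (jsum p h x / Real.sqrt h)) / p := by
  classical
  rw [measureReal_def, valMeasure, Measure.smul_apply, Measure.finsetSum_apply, smul_eq_mul,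
    ENNReal.toReal_mul, ENNReal.toReal_inv, ENNReal.toReal_natCast, div_eq_inv_mul]
  congr 1
  simp only [Measure.dirac_apply' _ hA, Set.indicator_apply, Pi.one_apply]
  rw [ENNReal.toReal_sum fun _ _ => by split_ifs <;> simp]
  refine sum_congr rfl fun n _ => ?_
  split_ifs <;> simp

variable {h : ℕ → ℕ}

/-- **The limit law of short sums.** -/
theorem tendsto_valMeasure_real (hh : Tendsto h primesAtTop atTop)
    (hlog : Tendsto (fun p => Real.log (h p) / Real.log p) primesAtTop (𝓝 0)) {A : Set ℝ}
    (hA : (ProbabilityTheory.gaussianReal 0 1) (frontier A) = 0) :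
    Tendsto (fun p => (valMeasure p (h p)).real A) primesAtTop
      (𝓝 ((ProbabilityTheory.gaussianReal 0 1).real A)) := by
  have : primesAtTop.IsCountablyGenerated :=
    inferInstanceAs (atTop ⊓ 𝓟 {p : ℕ | p.Prime}).IsCountablyGenerated
  refine tendsto_iff_seq_tendsto.2 fun q hq => ?_
  have hev : ∀ᶠ n in atTop, (q n).Prime :=
    hq.eventually (eventually_inf_principal.2 (Eventually.of_forall fun p hp => hp))
  obtain ⟨N, hN⟩ := eventually_atTop.1 hev
  rw [← tendsto_add_atTop_iff_nat N]
  let μs : ℕ → ProbabilityMeasure ℝ := fun n => ⟨valMeasure (q (n + N)) (h (q (n + N))),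
    isProbabilityMeasure_valMeasure (hN _ (Nat.le_add_left N n)).ne_zero _⟩
  let μ : ProbabilityMeasure ℝ := ⟨ProbabilityTheory.gaussianReal 0 1, inferInstance⟩
  have hconv : Tendsto μs atTop (𝓝 μ) := by
    refine ProbabilityMeasure.tendsto_iff_tendsto_charFun.2 fun t => ?_
    show Tendsto (fun n => charFun (valMeasure (q (n + N)) (h (q (n + N)))) t) atTop
      (𝓝 (charFun (ProbabilityTheory.gaussianReal 0 1) t))
    simp only [charFun_valMeasure, ProbabilityTheory.charFun_gaussianReal, Complex.ofReal_zero,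
      mul_zero, zero_mul, zero_sub, NNReal.coe_one, Complex.ofReal_one, one_mul, ← neg_div]
    exact (tendsto_charAvg hh hlog t).comp (hq.comp (tendsto_add_atTop_nat N))
  exact (ENNReal.tendsto_toReal (measure_ne_top _ _)).comp
    (ProbabilityMeasure.tendsto_measure_of_null_frontier_of_tendsto' hconv hA)

theorem gaussian_frontier_singleton (x : ℝ) :
    (ProbabilityTheory.gaussianReal 0 1) {x} = 0 := by
  have := ProbabilityTheory.nullSingletonClass_gaussianReal (μ := 0)
    (one_ne_zero : (1 : NNReal) ≠ 0)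
  exact measure_singleton x

theorem gaussian_Iic_eq_integral (t : ℝ) :
    (ProbabilityTheory.gaussianReal 0 1).real (Set.Iic t) =
      (∫ x in Set.Iic t, Real.exp (-x ^ 2 / 2)) / Real.sqrt (2 * Real.pi) := by
  rw [measureReal_def, ProbabilityTheory.gaussianReal_apply_eq_integral _ one_ne_zero,
    ENNReal.toReal_ofReal (setIntegral_nonneg measurableSet_Iic fun x _ =>
      ProbabilityTheory.gaussianPDFReal_nonneg _ _ _), ← integral_div]
  refine setIntegral_congr_fun measurableSet_Iic fun x _ => ?_
  simp [ProbabilityTheory.gaussianPDFReal, div_eq_inv_mul, mul_comm]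

theorem gaussian_Ici_zero : (ProbabilityTheory.gaussianReal 0 1).real (Set.Ici 0) = 1 / 2 := by
  obtain ⟨μ, hμ⟩ : ∃ μ, μ = ProbabilityTheory.gaussianReal 0 1 := ⟨_, rfl⟩
  rw [← hμ]
  have : IsProbabilityMeasure μ := hμ ▸ inferInstance
  have hneg : μ.map (fun x => -x) = μ := by
    rw [hμ, ProbabilityTheory.gaussianReal_map_neg, neg_zero]
  have h1 : μ.real (Set.Iic 0) = μ.real (Set.Ici 0) := by
    nth_rewrite 1 [← hneg]
    rw [map_measureReal_apply measurable_neg measurableSet_Iic]
    congr 1
    ext x
    simp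
  have h2 : μ.real (Set.Iio 0) = μ.real (Set.Iic 0) := by
    rw [measureReal_def, measureReal_def]
    congr 1
    refine measure_congr (ae_eq_set.2 ⟨?_, ?_⟩)
    · rw [Set.sdiff_eq_empty.2 Set.Iio_subset_Iic_self, measure_empty]
    · rw [Set.Iic_sdiff_Iio, Set.Icc_self, hμ]
      exact gaussian_frontier_singleton 0
  have h3 : μ.real (Set.Iio 0) + μ.real (Set.Ici 0) = 1 := by
    have := measureReal_add_measureReal_compl (μ := μ) (measurableSet_Iio (a := (0 : ℝ)))
    rw [Set.compl_Iio, probReal_univ] at this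
    exact this
  linarith

theorem card_filter_jsum_le (hh : Tendsto h primesAtTop atTop)
    (hlog : Tendsto (fun p => Real.log (h p) / Real.log p) primesAtTop (𝓝 0)) (t : ℝ) :
    Tendsto (fun p => (((range p).filter fun x =>
      jsum p (h p) x ≤ t * Real.sqrt (h p)).card : ℝ) / p) primesAtTop
      (𝓝 ((∫ x in Set.Iic t, Real.exp (-x ^ 2 / 2)) / Real.sqrt (2 * Real.pi))) := by
  rw [← gaussian_Iic_eq_integral]
  refine (tendsto_valMeasure_real hh hlog
    (by rw [frontier_Iic]; exact gaussian_frontier_singleton t)).congr' ?_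
  filter_upwards [hh.eventually_gt_atTop 0] with p hp
  rw [valMeasure_real _ _ measurableSet_Iic, ← sum_boole]
  congr 1
  refine sum_congr rfl fun x _ => ?_
  simp only [Set.indicator_apply, Set.mem_Iic,
    div_le_iff₀ (Real.sqrt_pos.2 (Nat.cast_pos.2 hp))]

theorem card_filter_jsum_nonneg (hh : Tendsto h primesAtTop atTop)
    (hlog : Tendsto (fun p => Real.log (h p) / Real.log p) primesAtTop (𝓝 0)) :
    Tendsto (fun p => (((range p).filter fun x => 0 ≤ jsum p (h p) x).card : ℝ) / p) primesAtTop
      (𝓝 (1 / 2)) := by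
  rw [← gaussian_Ici_zero]
  refine (tendsto_valMeasure_real hh hlog
    (by rw [frontier_Ici]; exact gaussian_frontier_singleton 0)).congr' ?_
  filter_upwards [hh.eventually_gt_atTop 0] with p hp
  rw [valMeasure_real _ _ measurableSet_Ici, ← sum_boole]
  congr 1
  refine sum_congr rfl fun x _ => ?_
  simp only [Set.indicator_apply, Set.mem_Ici,
    le_div_iff₀ (Real.sqrt_pos.2 (Nat.cast_pos.2 hp)), zero_mul]

theorem jsum_eq_count (p n x : ℕ) :
    jsum p n x = (((range n).filter fun i => jacobiSym ((x + i + 1 : ℕ) : ℤ) p = 1).card : ℝ) -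
      (((range n).filter fun i => jacobiSym ((x + i + 1 : ℕ) : ℤ) p = -1).card : ℝ) := by
  rw [jsum, ← sum_boole, ← sum_boole, ← sum_sub_distrib]
  refine sum_congr rfl fun i _ => ?_
  obtain ⟨m, hm⟩ : ∃ m, m = ((x + i + 1 : ℕ) : ℤ) := ⟨_, rfl⟩
  rw [← hm]
  rcases jacobiSym.trichotomy m p with e | e | e <;> simp [e]

theorem tendsto_second_moment (hh : Tendsto h primesAtTop atTop)
    (hlog : Tendsto (fun p => Real.log (h p) / Real.log p) primesAtTop (𝓝 0)) :
    Tendsto (fun p => charMoment p (h p) 2 / h p) primesAtTop (𝓝 1) := by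
  refine tendsto_iff_dist_tendsto_zero.2 (squeeze_zero' (Eventually.of_forall fun p => dist_nonneg)
    ?_ (by simpa using (tendsto_sqrt_pow_div hlog 2).const_mul (75 : ℝ)))
  filter_upwards [hh.eventually_gt_atTop 0, eventually_lt_and_pow_div_le hlog 0,
    eventually_inf_principal.2 (Eventually.of_forall fun p hp => hp)] with p hp hlt hpp
  have := Fact.mk hpp
  have hb := abs_charMoment_sub_le hlt.1 2
  rw [modelMoment_two] at hb
  have hR : (0 : ℝ) < h p := Nat.cast_pos.2 hp
  rw [Real.dist_eq, div_sub_one hR.ne', abs_div, abs_of_pos hR, div_le_iff₀ hR]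
  refine hb.trans (le_of_eq ?_)
  push_cast
  ring

end FA.ShortCharSums
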