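import Mathlib.Analysis.SpecialFunctions.Trigonometric.Series
import Mathlib.Analysis.SpecialFunctions.Complex.LogBounds
import Mathlib.Analysis.Complex.Trigonometric

/-!
# The model of independent random signs

The moments of `ε₁ + ⋯ + ε_h`, their generating functions, and the limit of `cos (t / √h) ^ h`.
-/

set_option autoImplicit false

noncomputable section

namespace FA.ShortCharSums

open Finset Filter
open scoped Topology

/-- A sign. -/
def sgn (b : Bool) : ℝ := if b then 1 else -1

/-- `ε₁ + ⋯ + ε_h`. -/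
def signSum {h : ℕ} (ε : Fin h → Bool) : ℝ := ∑ i, sgn (ε i)

/-- The moments of the model. -/
def modelMoment (h k : ℕ) : ℝ := (∑ ε : Fin h → Bool, signSum ε ^ k) / 2 ^ h

/-- Every value is taken an even number of times. -/
def EvenTuple {k h : ℕ} (f : Fin k → Fin h) : Prop := ∀ b, Even (univ.filter fun j => f j = b).card

instance {k h : ℕ} (f : Fin k → Fin h) : Decidable (EvenTuple f) :=
  inferInstanceAs (Decidable (∀ b, Even (univ.filter fun j => f j = b).card))

theorem sum_prod_sgn {k h : ℕ} (f : Fin k → Fin h) :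
    ∑ ε : Fin h → Bool, ∏ j, sgn (ε (f j)) = if EvenTuple f then (2 : ℝ) ^ h else 0 := by
  have e : ∀ ε : Fin h → Bool, ∏ j, sgn (ε (f j)) =
      ∏ b, sgn (ε b) ^ (univ.filter fun j => f j = b).card := by
    intro ε
    rw [← prod_fiberwise' univ f fun b => sgn (ε b)]
    simp only [prod_const]
  simp only [e]
  rw [← Fintype.prod_sum fun b c => sgn c ^ (univ.filter fun j => f j = b).card]
  simp only [Fintype.sum_bool, sgn, if_true, Bool.false_eq_true, if_false, one_pow]
  by_cases hf : EvenTuple f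
  · rw [if_pos hf, prod_congr rfl fun b _ => show (1 : ℝ) +
      (-1) ^ (univ.filter fun j => f j = b).card = 2 by rw [(hf b).neg_one_pow]; norm_num]
    simp
  · rw [if_neg hf]
    obtain ⟨b, hb⟩ := not_forall.1 hf
    refine prod_eq_zero (mem_univ b) ?_
    rw [(Nat.not_even_iff_odd.1 hb).neg_one_pow, add_neg_cancel]

theorem modelMoment_eq (h k : ℕ) :
    modelMoment h k = ((univ.filter fun f : Fin k → Fin h => EvenTuple f).card : ℝ) := by
  rw [modelMoment, div_eq_iff (by positivity)]
  simp only [signSum, sum_pow', Fintype.piFinset_univ]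
  rw [sum_comm]
  simp only [sum_prod_sgn, sum_ite, sum_const, sum_const_zero, add_zero, nsmul_eq_mul, mul_zero]

theorem modelMoment_two (h : ℕ) : modelMoment h 2 = h := by
  rw [modelMoment_eq, Nat.cast_inj]
  refine (card_bij (fun i _ => (fun _ => i : Fin 2 → Fin h)) (fun i _ => ?_)
    (fun i _ j _ e => congrFun e 0) fun f hf => ?_).symm.trans (Fintype.card_fin h)
  · rw [mem_filter]
    refine ⟨mem_univ _, fun b => ?_⟩
    by_cases hb : i = b <;> simp [hb]
  · rw [mem_filter] at hf
    refine ⟨f 0, mem_univ _, funext fun j => ?_⟩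
    by_contra hne
    have h2 := hf.2 (f 0)
    have hj : j = 1 := by
      fin_cases j
      · simp at hne
      · rfl
    subst hj
    have : (univ.filter fun j => f j = f 0) = {0} := by
      ext j
      fin_cases j
      · simp
      · simp [Ne.symm hne]
    rw [this] at h2
    simp at h2

theorem sum_exp_mul_signSum (h : ℕ) (z : ℂ) :
    ∑ ε : Fin h → Bool, Complex.exp (z * (signSum ε : ℂ)) = (2 * Complex.cosh z) ^ h := by
  simp only [signSum, Complex.ofReal_sum, mul_sum, Complex.exp_sum]
  rw [← Fintype.prod_sum fun (_ : Fin h) c => Complex.exp (z * (sgn c : ℂ))]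
  simp only [Fintype.sum_bool, sgn, if_true, Bool.false_eq_true, if_false, prod_const, card_univ,
    Fintype.card_fin, Complex.two_cosh]
  simp

theorem sum_exp_mul_signSum_real (h : ℕ) (u : ℝ) :
    ∑ ε : Fin h → Bool, Real.exp (u * signSum ε) = (2 * Real.cosh u) ^ h := by
  apply Complex.ofReal_injective
  push_cast
  exact sum_exp_mul_signSum h u

theorem sum_pow_div_le (h r : ℕ) (hh : 0 < h) (u : ℝ) :
    (∑ ε : Fin h → Bool, (u * (signSum ε / Real.sqrt h)) ^ (2 * r) / (2 * r).factorial) / 2 ^ h ≤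
      2 * Real.exp (u ^ 2 / 2) := by
  have hs : 0 < Real.sqrt h := Real.sqrt_pos.2 (Nat.cast_pos.2 hh)
  have hb : ∀ y : ℝ, y ^ (2 * r) / (2 * r).factorial ≤ Real.exp y + Real.exp (-y) := by
    intro y
    have h1 := Real.pow_div_factorial_le_exp |y| (abs_nonneg y) (2 * r)
    rw [(even_two_mul r).pow_abs] at h1
    refine h1.trans ?_
    rcases abs_choice y with e | e <;> rw [e] <;>
      linarith [Real.exp_pos y, Real.exp_pos (-y)]
  rw [div_le_iff₀ (by positivity)]
  refine (sum_le_sum fun ε _ => hb _).trans ?_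
  have e : ∀ ε : Fin h → Bool, u * (signSum ε / Real.sqrt h) = u / Real.sqrt h * signSum ε :=
    fun ε => by ring
  simp only [e, ← neg_mul]
  rw [sum_add_distrib, sum_exp_mul_signSum_real, sum_exp_mul_signSum_real, Real.cosh_neg,
    ← two_mul, mul_assoc 2 (Real.exp _)]
  refine mul_le_mul_of_nonneg_left ?_ two_pos.le
  rw [mul_pow, mul_comm (Real.exp _)]
  refine mul_le_mul_of_nonneg_left ((pow_le_pow_left₀ (Real.cosh_pos _).le
    (Real.cosh_le_exp_half_sq _) h).trans (le_of_eq ?_)) (by positivity)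
  rw [← Real.exp_nat_mul, div_pow, Real.sq_sqrt (Nat.cast_nonneg h)]
  congr 1
  field_simp

theorem tendsto_cos_pow (t : ℝ) :
    Tendsto (fun h : ℕ => Real.cos (t / Real.sqrt h) ^ h) atTop
      (𝓝 (Real.exp (-(t ^ 2) / 2))) := by
  obtain ⟨g, hg⟩ : ∃ g : ℕ → ℝ, g = fun h : ℕ => Real.cos (t / Real.sqrt h) - 1 := ⟨_, rfl⟩
  have hlim : Tendsto (fun h : ℕ => (h : ℝ) * g h) atTop (𝓝 (-(t ^ 2) / 2)) := by
    have hs : Tendsto (fun h : ℕ => |t| / Real.sqrt h) atTop (𝓝 0) :=
      tendsto_const_nhds.div_atTop (Real.tendsto_sqrt_atTop.comp tendsto_natCast_atTop_atTop)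
    refine tendsto_iff_dist_tendsto_zero.2 (squeeze_zero'
      (Eventually.of_forall fun h => dist_nonneg) ?_
      (tendsto_const_div_atTop_nhds_zero_nat (t ^ 4)))
    filter_upwards [hs.eventually_le_const zero_lt_one, eventually_gt_atTop 0] with h hh hpos
    have hR : (0 : ℝ) < h := Nat.cast_pos.2 hpos
    have hb := Real.cos_bound (x := t / Real.sqrt h)
      (by rwa [abs_div, abs_of_nonneg (Real.sqrt_nonneg _)])
    have e : (t / Real.sqrt h) ^ 2 = t ^ 2 / h := by rw [div_pow, Real.sq_sqrt hR.le]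
    have e4 : |t / Real.sqrt h| ^ 4 = t ^ 4 / h ^ 2 := by
      rw [show 4 = 2 * 2 from rfl, pow_mul, sq_abs, e, div_pow, ← pow_mul]
    rw [e, e4] at hb
    have e' : (h : ℝ) * g h - -(t ^ 2) / 2 =
        (h : ℝ) * (Real.cos (t / Real.sqrt h) - (1 - t ^ 2 / h / 2)) := by
      rw [hg]
      field_simp
      ring
    rw [Real.dist_eq, e', abs_mul, abs_of_pos hR]
    refine (mul_le_mul_of_nonneg_left hb hR.le).trans ?_
    rw [← mul_assoc, show (h : ℝ) * (t ^ 4 / h ^ 2) = t ^ 4 / h by field_simp]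
    exact mul_le_of_le_one_right (by positivity) (by norm_num)
  refine (Real.tendsto_one_add_pow_exp_of_tendsto hlim).congr fun h => ?_
  rw [hg, add_sub_cancel]

end FA.ShortCharSums
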