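import Fermat.Agent.Burgess.Moment
import Fermat.Agent.ShortCharSums.Model
import Mathlib.NumberTheory.LegendreSymbol.JacobiSymbol

/-!
# The moments of short sums of Legendre symbols

Weil's bound: the moments differ from those of random signs by `O_k (h ^ k / √p)`.
-/

set_option autoImplicit false

noncomputable section

namespace FA.ShortCharSums

open Finset Polynomial
open FA.Burgess (chi shiftPoly ConstMulSq)

/-- `∑_{n = x + 1}^{x + h} (n / p)`. -/
def jsum (p h x : ℕ) : ℝ := ∑ i ∈ range h, (jacobiSym ((x + i + 1 : ℕ) : ℤ) p : ℝ)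

/-- The moments. -/
def charMoment (p h k : ℕ) : ℝ := (∑ x ∈ range p, jsum p h x ^ k) / p

variable {p : ℕ} [Fact p.Prime]

theorem jsum_eq (h x : ℕ) :
    jsum p h x = ∑ i : Fin h, chi p ((x : ZMod p) + (((i : ℕ) + 1 : ℕ) : ZMod p)) := by
  rw [jsum, ← Fin.sum_univ_eq_sum_range (fun i => (jacobiSym ((x + i + 1 : ℕ) : ℤ) p : ℝ))]
  refine sum_congr rfl fun i _ => ?_
  rw [← jacobiSym.legendreSym.to_jacobiSym, legendreSym, chi]
  push_cast
  rw [add_assoc]

theorem sum_range_eq_sum_zmod (F : ZMod p → ℝ) :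
    ∑ x ∈ range p, F (x : ZMod p) = ∑ x : ZMod p, F x := by
  have hp : NeZero p := ⟨(Fact.out (p := p.Prime)).ne_zero⟩
  refine sum_nbij' (fun x => (x : ZMod p)) ZMod.val (fun x _ => mem_univ _)
    (fun x _ => mem_range.2 (ZMod.val_lt x)) (fun x hx => ?_) (fun x _ => ?_) fun x _ => rfl
  · exact ZMod.val_natCast_of_lt (mem_range.1 hx)
  · exact ZMod.natCast_zmod_val x

theorem even_of_constMulSq {k h : ℕ} (hh : h < p) (f : Fin k → Fin h)
    (hf : ConstMulSq (shiftPoly p fun j => (f j : ℕ) + 1)) : EvenTuple f := by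
  classical
  obtain ⟨c, u, hu⟩ := hf
  intro b
  obtain ⟨t, ht⟩ : ∃ t : Fin k → ℕ, t = fun j => (f j : ℕ) + 1 := ⟨_, rfl⟩
  rw [← ht] at hu
  have hne : shiftPoly p t ≠ 0 := prod_ne_zero_iff.2 fun i _ => X_add_C_ne_zero _
  have hc : c ≠ 0 := fun h0 => hne (by rw [hu, h0, C_0, zero_mul])
  have hroots : (shiftPoly p t).roots = 2 • u.roots := by
    rw [hu, roots_C_mul _ hc, roots_pow]
  have hroots2 : (shiftPoly p t).roots = univ.val.map fun j => -(t j : ZMod p) := by
    rw [shiftPoly, roots_prod _ _ (by rwa [← shiftPoly]), Multiset.bind]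
    simp only [roots_X_add_C]
    exact Multiset.bind_singleton (univ.val) fun j => -(t j : ZMod p)
  have h1 := congrArg (Multiset.count (-(((b : ℕ) + 1 : ℕ) : ZMod p))) (hroots2.symm.trans hroots)
  rw [Multiset.count_nsmul, Multiset.count_map, ← filter_val, card_val] at h1
  have e : univ.filter (fun j => f j = b) =
      univ.filter fun j => -(((b : ℕ) + 1 : ℕ) : ZMod p) = -(t j : ZMod p) := by
    refine filter_congr fun j _ => ?_
    rw [neg_inj, ht, ZMod.natCast_eq_natCast_iff',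
      Nat.mod_eq_of_lt (show (b : ℕ) + 1 < p from (Nat.succ_le_of_lt b.2).trans_lt hh),
      Nat.mod_eq_of_lt (show (f j : ℕ) + 1 < p from (Nat.succ_le_of_lt (f j).2).trans_lt hh),
      Nat.succ_inj, Fin.ext_iff, eq_comm]
  rw [e, h1]
  exact even_two_mul _

theorem abs_sum_prod_sub_le {k h : ℕ} (hh : h < p) (f : Fin k → Fin h) :
    |(∑ x : ZMod p, ∏ j, chi p (x + (((f j : ℕ) + 1 : ℕ) : ZMod p))) -
      (if EvenTuple f then (p : ℝ) else 0)| ≤ 25 * (k + 1) * Real.sqrt p := by
  classical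
  by_cases hf : EvenTuple f
  · rw [if_pos hf]
    obtain ⟨a, ha⟩ : ∃ a : Fin h → ZMod p, a = fun b : Fin h => (((b : ℕ) + 1 : ℕ) : ZMod p) :=
      ⟨_, rfl⟩
    have e1 : ∀ x ∈ (univ : Finset (ZMod p)), x ∉ univ.image (fun j => -a (f j)) →
        ∏ j, chi p (x + a (f j)) = 1 := by
      intro x _ hx
      rw [← prod_fiberwise' univ f fun b => chi p (x + a b)]
      refine prod_eq_one fun b _ => ?_
      rw [prod_const]
      rcases (univ.filter fun j => f j = b).eq_empty_or_nonempty with e | ⟨j, hj⟩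
      · rw [e, card_empty, pow_zero]
      · rw [mem_filter] at hj
        obtain ⟨m, hm⟩ := hf b
        have hne : x + a b ≠ 0 := fun h0 =>
          hx (mem_image.2 ⟨j, mem_univ _, by rw [hj.2]; exact (eq_neg_of_add_eq_zero_left h0).symm⟩)
        rw [hm, ← two_mul, pow_mul, chi]
        rcases quadraticChar_dichotomy hne with e | e <;> simp [e]
    have e : ∀ j, (((f j : ℕ) + 1 : ℕ) : ZMod p) = a (f j) := fun j => by rw [ha]
    simp only [e]
    have hP : (p : ℝ) = ∑ _x : ZMod p, (1 : ℝ) := by simp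
    rw [hP, ← sum_sub_distrib, ← sum_subset (subset_univ (univ.image fun j => -a (f j)))
      fun x hx hx' => sub_eq_zero.2 (e1 x hx hx'), ← hP]
    refine (abs_sum_le_sum_abs _ _).trans ((sum_le_card_nsmul _ _ 2 fun x _ => ?_).trans ?_)
    · have hb : |∏ j, chi p (x + a (f j))| ≤ 1 := by
        rw [abs_prod]
        exact prod_le_one (fun _ _ => abs_nonneg _) fun _ _ => FA.Burgess.abs_chi_le _
      refine (abs_sub _ _).trans ?_
      rw [abs_one]
      linarith
    · rw [nsmul_eq_mul]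
      have h1 : ((univ.image fun j => -a (f j)).card : ℝ) ≤ k :=
        Nat.cast_le.2 (card_image_le.trans (by simp))
      have h2 : (1 : ℝ) ≤ Real.sqrt p :=
        Real.one_le_sqrt.2 (Nat.one_le_cast.2 (Fact.out (p := p.Prime)).one_le)
      have h3 := mul_le_mul (show (2 * k : ℝ) ≤ 25 * (k + 1) by
        linarith [Nat.cast_nonneg (α := ℝ) k]) h2 zero_le_one (by positivity)
      linarith
  · rw [if_neg hf, sub_zero]
    have e : ∀ x : ZMod p, ∏ j, chi p (x + (((f j : ℕ) + 1 : ℕ) : ZMod p)) =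
        chi p ((shiftPoly p fun j => (f j : ℕ) + 1).eval x) := by
      intro x
      rw [shiftPoly, eval_prod, FA.Burgess.chi_prod]
      simp
    simp only [e]
    refine (FA.Burgess.abs_sum_chi_le fun h0 => hf (even_of_constMulSq hh f h0)).trans ?_
    rw [FA.Burgess.natDegree_shiftPoly]

theorem abs_charMoment_sub_le {h : ℕ} (hh : h < p) (k : ℕ) :
    |charMoment p h k - modelMoment h k| ≤ 25 * (k + 1) * (h : ℝ) ^ k / Real.sqrt p := by
  classical
  have hp : (0 : ℝ) < p := Nat.cast_pos.2 (Fact.out (p := p.Prime)).pos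
  have e : ∑ x ∈ range p, jsum p h x ^ k =
      ∑ f : Fin k → Fin h, ∑ x : ZMod p, ∏ j, chi p (x + (((f j : ℕ) + 1 : ℕ) : ZMod p)) := by
    simp only [jsum_eq]
    rw [sum_range_eq_sum_zmod fun x => (∑ i : Fin h, chi p (x + (((i : ℕ) + 1 : ℕ) : ZMod p))) ^ k]
    simp only [sum_pow', Fintype.piFinset_univ]
    exact sum_comm
  have e' : modelMoment h k = (∑ f : Fin k → Fin h, if EvenTuple f then (p : ℝ) else 0) / p := by
    rw [modelMoment_eq, ← sum_filter, sum_const, nsmul_eq_mul, mul_div_cancel_right₀ _ hp.ne']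
  rw [charMoment, e, e', ← sub_div, ← sum_sub_distrib, abs_div, abs_of_pos hp, div_le_iff₀ hp]
  refine (abs_sum_le_sum_abs _ _).trans
    ((sum_le_card_nsmul _ _ _ fun f _ => abs_sum_prod_sub_le hh f).trans (le_of_eq ?_))
  rw [nsmul_eq_mul, card_univ, Fintype.card_fun, Fintype.card_fin, Fintype.card_fin, Nat.cast_pow,
    div_mul_eq_mul_div, mul_div_assoc, Real.div_sqrt]
  ring

end FA.ShortCharSums
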